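import Mathlib

set_option autoImplicit false

namespace Fermat.Agent.S57

open RingTheory.Sequence
open scoped Pointwise

section PS

variable {R : Type} [CommRing R]

lemma ps_smul_top_eq_ker :
    ((PowerSeries.X : PowerSeries R) • (⊤ : Submodule (PowerSeries R) (PowerSeries R))).toAddSubgroup
      = (PowerSeries.constantCoeff (R := R)).toAddMonoidHom.ker := by
  ext f
  simp only [Submodule.mem_toAddSubgroup, AddMonoidHom.mem_ker, RingHom.toAddMonoidHom_eq_coe,
    AddMonoidHom.coe_coe]
  rw [← PowerSeries.X_dvd_iff, Submodule.mem_smul_pointwise_iff_exists]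
  constructor
  · rintro ⟨g, -, rfl⟩
    exact ⟨g, rfl⟩
  · rintro ⟨g, rfl⟩
    exact ⟨g, trivial, rfl⟩

noncomputable def psQuotEquiv :
    QuotSMulTop (PowerSeries.X : PowerSeries R) (PowerSeries R) ≃+ R :=
  (QuotientAddGroup.quotientAddEquivOfEq ps_smul_top_eq_ker).trans
    (QuotientAddGroup.quotientKerEquivOfSurjective
      (PowerSeries.constantCoeff (R := R)).toAddMonoidHom
      (fun a => ⟨PowerSeries.C a, by simp⟩))

lemma psQuotEquiv_mk (f : PowerSeries R) :
    psQuotEquiv (Submodule.Quotient.mk f) = PowerSeries.constantCoeff f := rfl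

lemma ps_isWeaklyRegular (ts : List R) (h : IsWeaklyRegular R ts) :
    IsWeaklyRegular (PowerSeries R) (PowerSeries.X :: ts.map PowerSeries.C) := by
  rw [isWeaklyRegular_cons_iff]
  refine ⟨?_, ?_⟩
  · intro a b hab
    simp only [smul_eq_mul] at hab
    exact PowerSeries.X_mul_cancel hab
  · refine (AddEquiv.isWeaklyRegular_congr (e := psQuotEquiv (R := R)) ?_).mpr h
    refine List.forall₂_map_left_iff.mpr (List.forall₂_same.mpr fun t _ x => ?_)
    induction x using Submodule.Quotient.induction_on with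
    | _ f =>
      rw [← Submodule.Quotient.mk_smul, psQuotEquiv_mk, psQuotEquiv_mk]
      simp

lemma ps_comap_ofList (ts : List R) :
    Ideal.comap (PowerSeries.constantCoeff (R := R)) (Ideal.ofList ts) =
      Ideal.ofList (PowerSeries.X :: ts.map PowerSeries.C) := by
  rw [Ideal.ofList_cons, ← Ideal.map_ofList]
  apply le_antisymm
  · intro f hf
    rw [Ideal.mem_comap] at hf
    rw [PowerSeries.eq_X_mul_shift_add_const f]
    refine Ideal.add_mem _ (Ideal.mem_sup_left ?_) (Ideal.mem_sup_right ?_)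
    · exact Ideal.mul_mem_right _ _ (Ideal.subset_span rfl)
    · exact Ideal.mem_map_of_mem _ hf
  · refine sup_le ?_ ?_
    · rw [Ideal.span_le]
      rintro _ rfl
      simp
    · rw [Ideal.map_le_iff_le_comap]
      intro a ha
      simpa using ha

end PS

section Mv

variable {R : Type} [CommRing R]

lemma isWeaklyRegular_ringEquiv {A B : Type} [CommRing A] [CommRing B] (e : A ≃+* B)
    (ts : List A) : IsWeaklyRegular A ts ↔ IsWeaklyRegular B (ts.map e) :=
  e.toAddEquiv.isWeaklyRegular_congr <| List.forall₂_map_right_iff.mpr <|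
    List.forall₂_same.mpr fun r _ x => map_mul e r x

variable (R) in
noncomputable def mvSeq (n : ℕ) (ts : List R) : List (MvPowerSeries (Fin n) R) :=
  List.ofFn (fun i : Fin n => (MvPowerSeries.X i : MvPowerSeries (Fin n) R)) ++
    ts.map MvPowerSeries.C

lemma mvSeq_succ_map (n : ℕ) (ts : List R) :
    (mvSeq R (n + 1) ts).map (MvPowerSeries.finSuccEquiv R n) =
      PowerSeries.X :: (mvSeq R n ts).map PowerSeries.C := by
  simp [mvSeq, List.ofFn_succ, List.map_ofFn, Function.comp_def]

theorem mvSeq_isWeaklyRegular (n : ℕ) (ts : List R) (h : IsWeaklyRegular R ts) :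
    IsWeaklyRegular (MvPowerSeries (Fin n) R) (mvSeq R n ts) := by
  induction n with
  | zero =>
    have h1 := (isWeaklyRegular_ringEquiv
      (MvPowerSeries.isEmptyEquiv (Fin 0) R).symm.toRingEquiv ts).mp h
    have h2 : mvSeq R 0 ts = ts.map (MvPowerSeries.isEmptyEquiv (Fin 0) R).symm.toRingEquiv := by
      simp only [mvSeq, List.ofFn_zero, List.nil_append]
      rfl
    rw [h2]
    exact h1
  | succ n ih =>
    rw [isWeaklyRegular_ringEquiv (MvPowerSeries.finSuccEquiv R n).toRingEquiv]
    have h2 : (mvSeq R (n + 1) ts).map (MvPowerSeries.finSuccEquiv R n).toRingEquiv =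
        PowerSeries.X :: (mvSeq R n ts).map PowerSeries.C := mvSeq_succ_map n ts
    rw [h2]
    exact ps_isWeaklyRegular _ ih

lemma ofList_ringEquiv {A B : Type} [CommRing A] [CommRing B] (e : A ≃+* B)
    (ts : List A) : Ideal.ofList ts = Ideal.comap (e : A →+* B) (Ideal.ofList (ts.map e)) := by
  have h := Ideal.map_ofList (e : A →+* B) ts
  rw [show (List.map (⇑(e : A →+* B)) ts) = ts.map e from rfl] at h
  rw [← h, Ideal.comap_map_of_bijective (e : A →+* B) e.bijective]

lemma constantCoeff_finSuccEquiv (n : ℕ) (f : MvPowerSeries (Fin (n + 1)) R) :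
    MvPowerSeries.constantCoeff (PowerSeries.constantCoeff (MvPowerSeries.finSuccEquiv R n f)) =
      MvPowerSeries.constantCoeff f := by
  have := MvPowerSeries.coeff_coeff_finSuccEquiv f (k := 0) (x := 0)
  simpa [Finsupp.cons_zero_zero] using this

theorem mvSeq_ofList (n : ℕ) (ts : List R) :
    Ideal.ofList (mvSeq R n ts) =
      Ideal.comap (MvPowerSeries.constantCoeff (σ := Fin n) (R := R)) (Ideal.ofList ts) := by
  induction n with
  | zero =>
    have h2 : mvSeq R 0 ts = ts.map (MvPowerSeries.C (σ := Fin 0) (R := R)) := by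
      simp only [mvSeq, List.ofFn_zero, List.nil_append]
    rw [h2, ← Ideal.map_ofList]
    apply le_antisymm
    · rw [Ideal.map_le_iff_le_comap]
      intro a ha
      simpa using ha
    · intro f hf
      rw [Ideal.mem_comap] at hf
      have h3 : f = MvPowerSeries.C (MvPowerSeries.constantCoeff f) :=
        ((MvPowerSeries.isEmptyEquiv (Fin 0) R).left_inv f).symm
      rw [h3]
      exact Ideal.mem_map_of_mem _ hf
  | succ n ih =>
    rw [ofList_ringEquiv (MvPowerSeries.finSuccEquiv R n).toRingEquiv]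
    have h2 : (mvSeq R (n + 1) ts).map (MvPowerSeries.finSuccEquiv R n).toRingEquiv =
        PowerSeries.X :: (mvSeq R n ts).map PowerSeries.C := mvSeq_succ_map n ts
    rw [h2, ← ps_comap_ofList, ih, Ideal.comap_comap, Ideal.comap_comap]
    congr 1
    ext f
    exact constantCoeff_finSuccEquiv n f

end Mv

section DVR

open IsLocalRing

variable {𝒪 : Type} [CommRing 𝒪] [IsDomain 𝒪] [IsDiscreteValuationRing 𝒪]

theorem mvSeq_ofList_dvr (n : ℕ) (ϖ : 𝒪) (hϖ : Irreducible ϖ) :
    Ideal.ofList (mvSeq 𝒪 n [ϖ]) = maximalIdeal (MvPowerSeries (Fin n) 𝒪) := by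
  rw [mvSeq_ofList, Ideal.ofList_singleton, ← hϖ.maximalIdeal_eq]
  ext f
  rw [Ideal.mem_comap, mem_maximalIdeal, mem_maximalIdeal, mem_nonunits_iff, mem_nonunits_iff,
    MvPowerSeries.isUnit_iff_constantCoeff]

theorem mvSeq_isRegular_dvr (n : ℕ) (ϖ : 𝒪) (hϖ : Irreducible ϖ) :
    IsRegular (MvPowerSeries (Fin n) 𝒪) (mvSeq 𝒪 n [ϖ]) := by
  refine IsRegular.of_isWeaklyRegular_of_mem_maximalIdeal _ ?_ ?_
  · intro x hx
    rw [← mvSeq_ofList_dvr n ϖ hϖ]
    exact Ideal.subset_span hx
  · apply mvSeq_isWeaklyRegular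
    rw [isWeaklyRegular_singleton_iff]
    exact IsSMulRegular.of_ne_zero hϖ.ne_zero

end DVR

end Fermat.Agent.S57
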