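import Mathlib
import Fermat.Agent.S57.RegSeq

set_option autoImplicit false

namespace Fermat.Agent.S57

open IsLocalRing

lemma isArtinian_of_tower_of_torsion {𝒪 S Q : Type} [CommRing 𝒪] [CommRing S] [Algebra 𝒪 S]
    [AddCommGroup Q] [Module S Q] [Module 𝒪 Q] [IsScalarTower 𝒪 S Q]
    [Module.Finite 𝒪 Q] (𝔭 : Ideal 𝒪) [h𝔭 : 𝔭.IsMaximal] (h : ∀ a ∈ 𝔭, ∀ q : Q, a • q = 0) :
    IsArtinian S Q := by
  have ht : Module.IsTorsionBySet 𝒪 Q 𝔭 := by
    intro q a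
    exact h a.1 a.2 q
  let _ : Module (𝒪 ⧸ 𝔭) Q := ht.module
  let _ : Field (𝒪 ⧸ 𝔭) := Ideal.Quotient.field 𝔭
  have : IsScalarTower 𝒪 (𝒪 ⧸ 𝔭) Q := ht.isScalarTower
  have : Module.Finite (𝒪 ⧸ 𝔭) Q := Module.Finite.of_restrictScalars_finite 𝒪 _ _
  have : IsArtinian (𝒪 ⧸ 𝔭) Q := inferInstance
  have : IsArtinian 𝒪 Q :=
    isArtinian_of_surjective_algebraMap (R := 𝒪 ⧸ 𝔭) Ideal.Quotient.mk_surjective
  exact isArtinian_of_tower 𝒪 inferInstance

section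

variable {𝒪 : Type} [CommRing 𝒪] [IsDomain 𝒪] [IsDiscreteValuationRing 𝒪] {r : ℕ}
    {N : Type} [AddCommGroup N] [Module (MvPowerSeries (Fin r) 𝒪) N] [Module 𝒪 N]
    [IsScalarTower 𝒪 (MvPowerSeries (Fin r) 𝒪) N]
    (φ : MvPowerSeries (Fin r) 𝒪 →ₐ[𝒪] MvPowerSeries (Fin r) 𝒪) {d : ℕ} (b : Fin d → N)

omit [IsDomain 𝒪] [IsDiscreteValuationRing 𝒪] in
lemma map_sub_C_mem (ϖ : 𝒪) (c : MvPowerSeries (Fin r) 𝒪) :
    φ c - MvPowerSeries.C (MvPowerSeries.constantCoeff c) ∈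
      Ideal.ofList ((mvSeq 𝒪 r [ϖ]).map φ) := by
  have h1 : c - MvPowerSeries.C (MvPowerSeries.constantCoeff c) ∈
      Ideal.ofList (mvSeq 𝒪 r [ϖ]) := by
    rw [mvSeq_ofList, Ideal.mem_comap]
    simp
  have h2 : φ (c - MvPowerSeries.C (MvPowerSeries.constantCoeff c)) ∈
      Ideal.map (φ : MvPowerSeries (Fin r) 𝒪 →+* MvPowerSeries (Fin r) 𝒪)
        (Ideal.ofList (mvSeq 𝒪 r [ϖ])) := Ideal.mem_map_of_mem _ h1
  rw [Ideal.map_ofList] at h2
  have h3 : φ (MvPowerSeries.C (MvPowerSeries.constantCoeff c)) =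
      MvPowerSeries.C (MvPowerSeries.constantCoeff c) :=
    φ.commutes (MvPowerSeries.constantCoeff c)
  rw [map_sub, h3] at h2
  exact h2

omit [IsDomain 𝒪] [IsDiscreteValuationRing 𝒪] in
lemma C_mem (ϖ : 𝒪) :
    MvPowerSeries.C ϖ ∈ Ideal.ofList ((mvSeq 𝒪 r [ϖ]).map φ) := by
  have h3 : φ (MvPowerSeries.C ϖ) = MvPowerSeries.C ϖ := φ.commutes ϖ
  rw [← h3]
  apply Ideal.subset_span
  refine List.mem_map_of_mem ?_
  simp [mvSeq]

theorem isArtinian_quot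
    (hspan : ∀ x : N, ∃ c : Fin d → MvPowerSeries (Fin r) 𝒪, x = ∑ i, φ (c i) • b i)
    (ϖ : 𝒪) (hϖ : Irreducible ϖ) :
    IsArtinian (MvPowerSeries (Fin r) 𝒪)
      (N ⧸ Ideal.ofList ((mvSeq 𝒪 r [ϖ]).map φ) •
        (⊤ : Submodule (MvPowerSeries (Fin r) 𝒪) N)) := by
  set I := Ideal.ofList ((mvSeq 𝒪 r [ϖ]).map φ) with hI
  set P : Submodule (MvPowerSeries (Fin r) 𝒪) N := I • ⊤ with hP
  have hfin : Module.Finite 𝒪 (N ⧸ P) := by
    refine Module.Finite.of_surjective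
      (Fintype.linearCombination 𝒪 (fun i => (Submodule.Quotient.mk (b i) : N ⧸ P))) ?_
    intro q
    induction q using Submodule.Quotient.induction_on with
    | _ x =>
      obtain ⟨c, rfl⟩ := hspan x
      refine ⟨fun i => MvPowerSeries.constantCoeff (c i), ?_⟩
      rw [Fintype.linearCombination_apply]
      have h0 : ∑ i, MvPowerSeries.constantCoeff (c i) • (Submodule.Quotient.mk (b i) : N ⧸ P) =
          P.mkQ (∑ i, MvPowerSeries.constantCoeff (c i) • b i) := by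
        rw [map_sum]
        rfl
      rw [h0, Submodule.mkQ_apply]
      rw [Submodule.Quotient.eq, ← Finset.sum_sub_distrib]
      refine Submodule.sum_mem _ fun i _ => ?_
      rw [← algebraMap_smul (MvPowerSeries (Fin r) 𝒪)
        (MvPowerSeries.constantCoeff (c i)) (b i), ← sub_smul]
      refine Submodule.smul_mem_smul ?_ Submodule.mem_top
      rw [← neg_sub, MvPowerSeries.algebraMap_apply, Algebra.algebraMap_self, RingHom.id_apply]
      exact I.neg_mem (map_sub_C_mem φ ϖ (c i))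
  have hmax : (maximalIdeal 𝒪).IsMaximal := inferInstance
  refine isArtinian_of_tower_of_torsion (𝒪 := 𝒪) (maximalIdeal 𝒪) ?_
  intro a ha q
  rw [hϖ.maximalIdeal_eq, Ideal.mem_span_singleton'] at ha
  obtain ⟨a', rfl⟩ := ha
  induction q using Submodule.Quotient.induction_on with
  | _ x =>
    rw [← Submodule.Quotient.mk_smul, Submodule.Quotient.mk_eq_zero,
      ← algebraMap_smul (MvPowerSeries (Fin r) 𝒪) (a' * ϖ) x]
    refine Submodule.smul_mem_smul ?_ Submodule.mem_top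
    rw [map_mul, MvPowerSeries.algebraMap_apply, Algebra.algebraMap_self, RingHom.id_apply]
    exact I.mul_mem_left _ (C_mem φ ϖ)

end

end Fermat.Agent.S57
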