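import Mathlib

set_option autoImplicit false

namespace Fermat.Agent.S57

section

variable {S R N M : Type} [CommRing S] [CommRing R] [AddCommGroup N] [Module S N]
  [AddCommGroup M] [Module R M]

lemma repr_mem_of_mem_smul_top {ι : Type} (B : Module.Basis ι S N) (𝔞 : Ideal S) (x : N)
    (hx : x ∈ 𝔞 • (⊤ : Submodule S N)) (i : ι) : B.repr x i ∈ 𝔞 := by
  rw [← B.span_eq, Submodule.mem_ideal_smul_span_iff_exists_sum] at hx
  obtain ⟨a, ha, rfl⟩ := hx
  have : B.repr (a.sum fun i c => c • B i) = a := by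
    rw [← Finsupp.linearCombination_apply, B.repr_linearCombination]
  rw [this]
  exact ha i

lemma semilinear_linearCombination {ι : Type} (ψ : S →+* R) (π : N →+ M)
    (hπ : ∀ (f : S) (x : N), π (f • x) = ψ f • π x) (B : ι → N) (l : ι →₀ S) :
    π (Finsupp.linearCombination S B l) =
      Finsupp.linearCombination R (fun i => π (B i)) (Finsupp.mapRange ψ (map_zero ψ) l) := by
  rw [Finsupp.linearCombination_apply, Finsupp.linearCombination_apply, map_finsuppSum,
    Finsupp.sum_mapRange_index (by intro i; simp)]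
  simp [hπ]

theorem descent [Nontrivial M] [Module.Free S N]
    (ψ : S →+* R) (hψ : Function.Surjective ψ) (π : N →+ M)
    (hπ : ∀ (f : S) (x : N), π (f • x) = ψ f • π x) (hπs : Function.Surjective π)
    (𝔞 : Ideal S) (h𝔞 : 𝔞 ≤ RingHom.ker ψ)
    (hker : ∀ x : N, π x = 0 ↔ x ∈ 𝔞 • (⊤ : Submodule S N)) :
    Module.Free R M ∧ Module.annihilator R M = ⊥ ∧ RingHom.ker ψ = 𝔞 := by
  let B := Module.Free.chooseBasis S N
  have hli : LinearIndependent R (fun i => π (B i)) := by
    rw [linearIndependent_iff]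
    intro l hl
    obtain ⟨l', rfl⟩ := Finsupp.mapRange_surjective ψ (map_zero ψ) hψ l
    rw [← semilinear_linearCombination ψ π hπ B l', hker] at hl
    ext i
    have h1 := repr_mem_of_mem_smul_top B 𝔞 _ hl i
    rw [B.repr_linearCombination] at h1
    simpa using h𝔞 h1
  have hsp : ⊤ ≤ Submodule.span R (Set.range fun i => π (B i)) := by
    intro m _
    obtain ⟨x, rfl⟩ := hπs m
    rw [← B.linearCombination_repr x, semilinear_linearCombination ψ π hπ B]
    rw [← Finsupp.range_linearCombination]
    exact LinearMap.mem_range_self _ _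
  have hfree : Module.Free R M := Module.Free.of_basis (Module.Basis.mk hli hsp)
  refine ⟨hfree, Module.annihilator_eq_bot.mpr inferInstance, le_antisymm ?_ h𝔞⟩
  intro f hf
  have hN : Nontrivial N := by
    obtain ⟨m, hm⟩ := exists_ne (0 : M)
    obtain ⟨x, rfl⟩ := hπs m
    exact ⟨x, 0, fun h => hm (by rw [h, map_zero])⟩
  have hι : Nonempty (Module.Free.ChooseBasisIndex S N) := B.index_nonempty
  obtain ⟨i⟩ := hι
  have h1 : π (f • B i) = 0 := by rw [hπ, RingHom.mem_ker.mp hf, zero_smul]
  rw [hker] at h1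
  have h2 := repr_mem_of_mem_smul_top B 𝔞 _ h1 i
  simpa using h2

end

end Fermat.Agent.S57
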