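import Mathlib

set_option autoImplicit false

namespace Fermat.Agent.S57

open CategoryTheory RingTheory.Sequence IsLocalRing

variable {S : Type} [CommRing S] [IsLocalRing S] [IsNoetherianRing S]

lemma hasProjDimLT_residue (ts : List S) (hts : IsRegular S ts)
    (hmax : Ideal.ofList ts = maximalIdeal S) :
    HasProjectiveDimensionLT (ModuleCat.of S (S ⧸ maximalIdeal S)) (ts.length + 1) := by
  have h := ModuleCat.projectiveDimension_quotient_eq_length.{0} ts hts
  have h1 : HasProjectiveDimensionLE
      (ModuleCat.of S (Shrink.{0} (S ⧸ Ideal.ofList ts))) ts.length := by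
    rw [← projectiveDimension_le_iff, h]
  let e : Shrink.{0} (S ⧸ Ideal.ofList ts) ≃ₗ[S] (S ⧸ maximalIdeal S) :=
    (Shrink.linearEquiv S (S ⧸ Ideal.ofList ts)).trans
      (Submodule.quotEquivOfEq _ _ hmax)
  exact hasProjectiveDimensionLT_of_iso e.toModuleIso (ts.length + 1)

omit [IsNoetherianRing S] in
lemma hasProjDimLT_of_isFiniteLength (n : ℕ)
    (hk : HasProjectiveDimensionLT (ModuleCat.of S (S ⧸ maximalIdeal S)) n)
    {Q : Type} [AddCommGroup Q] [Module S Q] (h : IsFiniteLength S Q) :
    HasProjectiveDimensionLT (ModuleCat.of S Q) n := by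
  induction h with
  | @of_subsingleton M _ _ _ =>
    have hz : Limits.IsZero (ModuleCat.of S M) := ModuleCat.isZero_of_subsingleton _
    have := hz.hasProjectiveDimensionLT_zero
    exact hasProjectiveDimensionLT_of_ge _ 0 n (Nat.zero_le _)
  | @of_simple_quotient M _ _ P hs hP ih =>
    have hsurj : Function.Surjective P.mkQ := P.mkQ_surjective
    have hS := LinearMap.shortExact_shortComplexKer hsurj
    have h1 : HasProjectiveDimensionLT (P.mkQ.shortComplexKer).X₁ n := by
      have e : P ≃ₗ[S] LinearMap.ker P.mkQ := LinearEquiv.ofEq _ _ P.ker_mkQ.symm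
      exact hasProjectiveDimensionLT_of_iso e.toModuleIso n
    have h3 : HasProjectiveDimensionLT (P.mkQ.shortComplexKer).X₃ n := by
      obtain ⟨I, hI, ⟨e⟩⟩ := isSimpleModule_iff_quot_maximal.mp hs
      have hIm : I = maximalIdeal S := IsLocalRing.eq_maximalIdeal hI
      subst hIm
      exact hasProjectiveDimensionLT_of_iso e.symm.toModuleIso n
    exact hS.hasProjectiveDimensionLT_X₂ n h1 h3

theorem free_of_isWeaklyRegular (ts : List S) (hts : IsRegular S ts)
    (hmax : Ideal.ofList ts = maximalIdeal S)
    {N : Type} [AddCommGroup N] [Module S N] [Module.Finite S N]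
    (rs : List S) (hrs : IsWeaklyRegular N rs) (hmem : ∀ x ∈ rs, x ∈ maximalIdeal S)
    (hlen : ts.length ≤ rs.length)
    (hfl : IsFiniteLength S (N ⧸ Ideal.ofList rs • (⊤ : Submodule S N))) :
    Module.Free S N := by
  rcases subsingleton_or_nontrivial N with hN | hN
  · exact Module.Free.of_subsingleton S N
  · have h1 := ModuleCat.projectiveDimension_quotient_eq_add_length_of_isWeaklyRegular
      (ModuleCat.of S N) rs hrs hmem
    have h2 : HasProjectiveDimensionLT
        (ModuleCat.of S (N ⧸ Ideal.ofList rs • (⊤ : Submodule S N))) (ts.length + 1) :=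
      hasProjDimLT_of_isFiniteLength _ (hasProjDimLT_residue ts hts hmax) hfl
    have h3 : projectiveDimension
        (ModuleCat.of S (N ⧸ Ideal.ofList rs • (⊤ : Submodule S N))) ≤ ts.length :=
      (projectiveDimension_le_iff _ _).mpr h2
    rw [h1] at h3
    have h4 : projectiveDimension (ModuleCat.of S N) + (rs.length : WithBot ℕ∞) ≤
        ((0 : ℕ) : WithBot ℕ∞) + (rs.length : WithBot ℕ∞) := by
      refine h3.trans ?_
      rw [Nat.cast_zero, zero_add]
      exact_mod_cast hlen
    rw [ENat.WithBot.add_le_add_natCast_right_iff] at h4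
    have h5 : HasProjectiveDimensionLE (ModuleCat.of S N) 0 :=
      (projectiveDimension_le_iff _ _).mp h4
    have h6 : Projective (ModuleCat.of S N) :=
      (projective_iff_hasProjectiveDimensionLE_zero _).mpr h5
    have h7 : Module.Projective S N := (IsProjective.iff_projective N).mpr h6
    exact Module.free_of_flat_of_isLocalRing

end Fermat.Agent.S57
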