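import Mathlib

set_option autoImplicit false

namespace Fermat.Agent.S57

open RingTheory.Sequence
open scoped TensorProduct

section

variable {S : Type} [CommRing S] {N : Type} [AddCommGroup N] [Module S N]
  (φ : S →+* S) {d : ℕ} (b : Fin d → N)

noncomputable def semiHom : (Fin d → S) →+ N where
  toFun c := ∑ i, φ (c i) • b i
  map_zero' := by simp
  map_add' c c' := by simp [add_smul, Finset.sum_add_distrib]

lemma semiHom_apply (c : Fin d → S) : semiHom φ b c = ∑ i, φ (c i) • b i := rfl

variable (hspan : ∀ x : N, ∃ c : Fin d → S, x = ∑ i, φ (c i) • b i)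
  (hrel : ∀ c : Fin d → S, ∑ i, φ (c i) • b i = 0 → ∀ i, c i = 0)

include hspan hrel in
lemma semiHom_bijective : Function.Bijective (semiHom φ b) := by
  constructor
  · rw [injective_iff_map_eq_zero]
    intro c hc
    exact funext (hrel c hc)
  · intro x
    obtain ⟨c, hc⟩ := hspan x
    exact ⟨c, hc.symm⟩

noncomputable def semiEquiv : (Fin d → S) ≃+ N :=
  AddEquiv.ofBijective (semiHom φ b) (semiHom_bijective φ b hspan hrel)

lemma semiEquiv_smul (f : S) (c : Fin d → S) :
    semiEquiv φ b hspan hrel (f • c) = φ f • semiEquiv φ b hspan hrel c := by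
  change semiHom φ b (f • c) = φ f • semiHom φ b c
  simp [semiHom_apply, Finset.smul_sum, mul_smul]

include hspan in
lemma finite_of_span : Module.Finite S N := by
  refine Module.Finite.of_surjective (Fintype.linearCombination S b) ?_
  intro x
  obtain ⟨c, hc⟩ := hspan x
  refine ⟨fun i => φ (c i), ?_⟩
  rw [Fintype.linearCombination_apply, hc]

lemma isWeaklyRegular_pi (ts : List S) (h : IsWeaklyRegular S ts) :
    IsWeaklyRegular (Fin d → S) ts := by
  have h1 : IsWeaklyRegular ((Fin d → S) ⊗[S] S) ts := h.isWeaklyRegular_lTensor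
  exact ((TensorProduct.rid S (Fin d → S)).isWeaklyRegular_congr ts).mp h1

include hspan hrel in
lemma isWeaklyRegular_map (ts : List S) (h : IsWeaklyRegular S ts) :
    IsWeaklyRegular N (ts.map φ) := by
  refine (AddEquiv.isWeaklyRegular_congr (e := semiEquiv φ b hspan hrel) ?_).mp
    (isWeaklyRegular_pi ts h)
  refine List.forall₂_map_right_iff.mpr (List.forall₂_same.mpr fun f _ c => ?_)
  exact semiEquiv_smul φ b hspan hrel f c

end

end Fermat.Agent.S57
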