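import Fermat.Prelude.Def_Algebra_PatchingDatum
import Fermat.Agent.S57.ProjDim
import Fermat.Agent.S57.RegSeq
import Fermat.Agent.S57.Semilinear
import Fermat.Agent.S57.Artinian
import Fermat.Agent.S57.Descent

set_option autoImplicit false

namespace Fermat.Agent.S57

open RingTheory.Sequence

variable {𝒪 : Type} [CommRing 𝒪] [IsDomain 𝒪] [IsDiscreteValuationRing 𝒪]
    {r : ℕ} {R : Type} [CommRing R] [Algebra 𝒪 R]
    {M : Type} [AddCommGroup M] [Module R M] [Nontrivial M]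

lemma mem_maximalIdeal_of_level
    (L : Algebra.PatchingLevel 𝒪 r R M ⊥) (ϖ : 𝒪) (hϖ : Irreducible ϖ) :
    ∀ x ∈ (mvSeq 𝒪 r [ϖ]).map L.φ, x ∈ IsLocalRing.maximalIdeal (MvPowerSeries (Fin r) 𝒪) := by
  intro x hx
  simp only [mvSeq, List.map_cons, List.map_nil, List.map_append, List.mem_append, List.mem_map,
    List.mem_ofFn, List.mem_singleton] at hx
  rcases hx with ⟨y, ⟨i, rfl⟩, rfl⟩ | rfl
  · by_contra hu
    rw [IsLocalRing.mem_maximalIdeal, mem_nonunits_iff, not_not] at hu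
    have htop : Ideal.span (Set.range fun i : Fin r => L.φ (MvPowerSeries.X i)) = ⊤ :=
      Ideal.eq_top_of_isUnit_mem _ (Ideal.subset_span ⟨i, rfl⟩) hu
    obtain ⟨m, hm⟩ := exists_ne (0 : M)
    obtain ⟨x, rfl⟩ := L.π_surjective m
    apply hm
    rw [L.ker_π, htop, Submodule.top_smul]
    exact Submodule.mem_top
  · have h3 : L.φ (MvPowerSeries.C ϖ) = MvPowerSeries.C ϖ := L.φ.commutes ϖ
    rw [h3, ← mvSeq_ofList_dvr r ϖ hϖ]
    apply Ideal.subset_span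
    simp [mvSeq]

theorem free_of_level (L : Algebra.PatchingLevel 𝒪 r R M ⊥) :
    Module.Free (MvPowerSeries (Fin r) 𝒪) L.N := by
  obtain ⟨ϖ, hϖ⟩ := IsDiscreteValuationRing.exists_irreducible 𝒪
  have hspan : ∀ x : L.N, ∃ c : Fin L.d → MvPowerSeries (Fin r) 𝒪,
      x = ∑ i, (L.φ : MvPowerSeries (Fin r) 𝒪 →+* MvPowerSeries (Fin r) 𝒪) (c i) • L.b i :=
    L.b_span
  have hrel : ∀ c : Fin L.d → MvPowerSeries (Fin r) 𝒪,
      ∑ i, (L.φ : MvPowerSeries (Fin r) 𝒪 →+* MvPowerSeries (Fin r) 𝒪) (c i) • L.b i = 0 →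
        ∀ i, c i = 0 := fun c hc i => by
    simpa using (L.b_rel c).mp hc i
  have hfin : Module.Finite (MvPowerSeries (Fin r) 𝒪) L.N :=
    finite_of_span (L.φ : MvPowerSeries (Fin r) 𝒪 →+* MvPowerSeries (Fin r) 𝒪) L.b hspan
  have hR := mvSeq_isRegular_dvr r ϖ hϖ
  have hreg : IsWeaklyRegular L.N ((mvSeq 𝒪 r [ϖ]).map L.φ) :=
    isWeaklyRegular_map (L.φ : MvPowerSeries (Fin r) 𝒪 →+* MvPowerSeries (Fin r) 𝒪) L.b
      hspan hrel _ hR.toIsWeaklyRegular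
  have hmem := mem_maximalIdeal_of_level L ϖ hϖ
  have hart : IsArtinian (MvPowerSeries (Fin r) 𝒪)
      (L.N ⧸ Ideal.ofList ((mvSeq 𝒪 r [ϖ]).map L.φ) •
        (⊤ : Submodule (MvPowerSeries (Fin r) 𝒪) L.N)) := by
    let _ : Module 𝒪 L.N := Module.compHom L.N (algebraMap 𝒪 (MvPowerSeries (Fin r) 𝒪))
    have : IsScalarTower 𝒪 (MvPowerSeries (Fin r) 𝒪) L.N :=
      ⟨fun a f x => by
        change (a • f) • x = (algebraMap 𝒪 (MvPowerSeries (Fin r) 𝒪) a) • (f • x)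
        rw [Algebra.smul_def, mul_smul]⟩
    exact isArtinian_quot L.φ L.b L.b_span ϖ hϖ
  have hfl : IsFiniteLength (MvPowerSeries (Fin r) 𝒪)
      (L.N ⧸ Ideal.ofList ((mvSeq 𝒪 r [ϖ]).map L.φ) •
        (⊤ : Submodule (MvPowerSeries (Fin r) 𝒪) L.N)) :=
    isFiniteLength_iff_isNoetherian_isArtinian.mpr ⟨inferInstance, hart⟩
  exact free_of_isWeaklyRegular (mvSeq 𝒪 r [ϖ]) hR (mvSeq_ofList_dvr r ϖ hϖ) _ hreg hmem
    (by simp) hfl

theorem level_main (L : Algebra.PatchingLevel 𝒪 r R M ⊥) :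
    Module.Free R M ∧ Module.annihilator R M = ⊥ ∧
      RingHom.ker L.ψ = Ideal.span (Set.range fun i : Fin r => L.φ (MvPowerSeries.X i)) := by
  have := free_of_level L
  have h𝔞 : Ideal.span (Set.range fun i : Fin r => L.φ (MvPowerSeries.X i)) ≤
      RingHom.ker (L.ψ : MvPowerSeries (Fin r) 𝒪 →+* R) := by
    rw [Ideal.span_le]
    rintro _ ⟨i, rfl⟩
    exact L.ψ_φ_X i
  exact descent (L.ψ : MvPowerSeries (Fin r) 𝒪 →+* R) L.ψ_surjective L.π L.π_smul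
    L.π_surjective _ h𝔞 L.ker_π

end Fermat.Agent.S57
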