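import Mathlib
import Fermat.Prelude.Def_Algebra_PatchingDatum

set_option autoImplicit false

namespace Fermat.Agent.S57

open Module

theorem mem_ideal_smul_top_iff_repr {S N ι : Type} [CommRing S] [AddCommGroup N] [Module S N]
    (e : Basis ι S N) (I : Ideal S) (x : N) :
    x ∈ I • (⊤ : Submodule S N) ↔ ∀ j, e.repr x j ∈ I := by
  constructor
  · intro hx
    refine Submodule.smul_induction_on hx ?_ ?_
    · intro a ha y _ j
      rw [map_smul, Finsupp.smul_apply, smul_eq_mul]
      exact I.mul_mem_right _ ha
    · intro y z hy hz j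
      rw [map_add, Finsupp.add_apply]
      exact I.add_mem (hy j) (hz j)
  · intro h
    rw [← e.linearCombination_repr x, Finsupp.linearCombination_apply, Finsupp.sum]
    refine Submodule.sum_mem _ fun j _ => ?_
    exact Submodule.smul_mem_smul (h j) Submodule.mem_top

section

variable {𝒪 : Type} [CommRing 𝒪] {r : ℕ} {R : Type} [CommRing R] [Algebra 𝒪 R]
  {M : Type} [AddCommGroup M] [Module R M]
  {J : Ideal (MvPowerSeries (Fin r) 𝒪)}

theorem of_free [Nontrivial M] (L : Algebra.PatchingLevel 𝒪 r R M J)
    (hfree : Module.Free (MvPowerSeries (Fin r) 𝒪) L.N) :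
    Module.Free R M ∧ Module.annihilator R M = ⊥ ∧
      RingHom.ker L.ψ = Ideal.span (Set.range fun i : Fin r => L.φ (MvPowerSeries.X i)) := by
  classical
  set I : Ideal (MvPowerSeries (Fin r) 𝒪) :=
    Ideal.span (Set.range fun i : Fin r => L.φ (MvPowerSeries.X i)) with hI
  obtain ⟨⟨ι, e⟩⟩ := hfree
  have hNnt : Nontrivial L.N := by
    by_contra hN
    rw [not_nontrivial_iff_subsingleton] at hN
    obtain ⟨m, m', hmm'⟩ := exists_pair_ne M
    obtain ⟨x, rfl⟩ := L.π_surjective m
    obtain ⟨x', rfl⟩ := L.π_surjective m'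
    exact hmm' (by rw [Subsingleton.elim x x'])
  have hι : Nonempty ι := by
    by_contra hne
    rw [not_nonempty_iff] at hne
    have : Subsingleton L.N := e.repr.toEquiv.subsingleton
    exact not_subsingleton L.N this
  have hIle : I ≤ RingHom.ker L.ψ := by
    rw [hI, Ideal.span_le]
    rintro _ ⟨i, rfl⟩
    exact L.ψ_φ_X i
  have hker : RingHom.ker L.ψ = I := by
    refine le_antisymm ?_ hIle
    intro f hf
    rw [RingHom.mem_ker] at hf
    obtain ⟨j⟩ := hι
    have h1 : L.π (f • e j) = 0 := by
      rw [L.π_smul, hf, zero_smul]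
    have h2 := (L.ker_π _).1 h1
    rw [← hI, mem_ideal_smul_top_iff_repr e I] at h2
    have h3 := h2 j
    rw [map_smul, Finsupp.smul_apply, e.repr_self, Finsupp.single_eq_same, smul_eq_mul,
      mul_one] at h3
    exact h3
  have hπadd : ∀ (s : Finset ι) (g : ι → L.N), L.π (∑ j ∈ s, g j) = ∑ j ∈ s, L.π (g j) :=
    fun s g => map_sum L.π g s
  -- the basis of M
  have hli : LinearIndependent R (fun j => L.π (e j)) := by
    rw [linearIndependent_iff']
    intro s c hc j hj
    choose c' hc' using fun j => L.ψ_surjective (c j)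
    have h1 : L.π (∑ j ∈ s, c' j • e j) = 0 := by
      rw [hπadd]
      rw [← hc]
      refine Finset.sum_congr rfl fun j _ => ?_
      rw [L.π_smul, hc']
    have h2 := (L.ker_π _).1 h1
    rw [← hI, mem_ideal_smul_top_iff_repr e I] at h2
    have h3 := h2 j
    have h4 : e.repr (∑ j ∈ s, c' j • e j) j = c' j := by
      rw [map_sum, Finsupp.finsetSum_apply]
      rw [Finset.sum_eq_single j]
      · rw [map_smul, Finsupp.smul_apply, e.repr_self, Finsupp.single_eq_same, smul_eq_mul,
          mul_one]
      · intro k _ hkj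
        rw [map_smul, Finsupp.smul_apply, e.repr_self, Finsupp.single_eq_of_ne hkj.symm,
          smul_zero]
      · intro hjs
        exact absurd hj hjs
    rw [h4, ← hker, RingHom.mem_ker, hc'] at h3
    exact h3
  have hsp : ⊤ ≤ Submodule.span R (Set.range fun j => L.π (e j)) := by
    rintro m -
    obtain ⟨x, rfl⟩ := L.π_surjective m
    rw [← e.linearCombination_repr x, Finsupp.linearCombination_apply, Finsupp.sum, hπadd]
    refine Submodule.sum_mem _ fun j _ => ?_
    rw [L.π_smul]
    exact Submodule.smul_mem _ _ (Submodule.subset_span ⟨j, rfl⟩)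
  have hfreeM : Module.Free R M := Module.Free.of_basis (Basis.mk hli hsp)
  refine ⟨hfreeM, ?_, hker⟩
  have := hfreeM
  have hRnt : Nontrivial R := by
    by_contra hR
    rw [not_nontrivial_iff_subsingleton] at hR
    have : Subsingleton M := Module.subsingleton R M
    exact not_subsingleton M this
  exact Module.annihilator_eq_bot.mpr inferInstance

end

end Fermat.Agent.S57
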