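import Mathlib

set_option autoImplicit false

namespace Fermat.Agent.S57

open CategoryTheory IsLocalRing RingTheory.Sequence

section

variable {S : Type} [CommRing S]

theorem hasProjDimLT_of_subsingleton (Q : Type) [AddCommGroup Q] [Module S Q] [Subsingleton Q]
    (n : ℕ) : HasProjectiveDimensionLT (ModuleCat.of S Q) n := by
  have hz : Limits.IsZero (ModuleCat.of S Q) := ModuleCat.isZero_of_subsingleton _
  have := hz.hasProjectiveDimensionLT_zero
  exact hasProjectiveDimensionLT_of_ge _ 0 n (Nat.zero_le n)

theorem hasProjDimLT_of_linearEquiv {Q Q' : Type} [AddCommGroup Q] [Module S Q]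
    [AddCommGroup Q'] [Module S Q'] (e : Q ≃ₗ[S] Q') (n : ℕ)
    (h : HasProjectiveDimensionLT (ModuleCat.of S Q) n) :
    HasProjectiveDimensionLT (ModuleCat.of S Q') n :=
  hasProjectiveDimensionLT_of_iso e.toModuleIso n

variable [IsLocalRing S]

theorem hasProjDimLT_of_isFiniteLength (n : ℕ)
    (hk : HasProjectiveDimensionLT (ModuleCat.of S (S ⧸ maximalIdeal S)) n)
    (Q : Type) [AddCommGroup Q] [Module S Q] (hQ : IsFiniteLength S Q) :
    HasProjectiveDimensionLT (ModuleCat.of S Q) n := by
  induction hQ with
  | of_subsingleton => exact hasProjDimLT_of_subsingleton _ n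
  | @of_simple_quotient M _ _ N hsimple hN ih =>
    have hsurj : Function.Surjective N.mkQ := N.mkQ_surjective
    have hS := LinearMap.shortExact_shortComplexKer hsurj
    have h1 : HasProjectiveDimensionLT (ModuleCat.of S (LinearMap.ker N.mkQ)) n :=
      hasProjDimLT_of_linearEquiv (LinearEquiv.ofEq _ _ (Submodule.ker_mkQ N).symm) n ih
    have h3 : HasProjectiveDimensionLT (ModuleCat.of S (M ⧸ N)) n := by
      obtain ⟨I, hI, ⟨e⟩⟩ := isSimpleModule_iff_quot_maximal.mp hsimple
      have hIm : I = maximalIdeal S := IsLocalRing.eq_maximalIdeal hI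
      subst hIm
      exact hasProjDimLT_of_linearEquiv e.symm n hk
    exact hS.hasProjectiveDimensionLT_X₂ n h1 h3

variable [IsNoetherianRing S]

theorem projDim_residue_eq (rs : List S) (hreg : IsRegular S rs)
    (hmax : Ideal.ofList rs = maximalIdeal S) :
    projectiveDimension (ModuleCat.of S (S ⧸ maximalIdeal S)) = rs.length := by
  have h := ModuleCat.projectiveDimension_quotient_eq_length.{0} rs hreg
  rw [← h]
  have e : (S ⧸ maximalIdeal S) ≃ₗ[S] Shrink.{0} (S ⧸ Ideal.ofList rs) :=
    (Submodule.quotEquivOfEq _ _ hmax.symm).trans (Shrink.linearEquiv S _).symm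
  exact projectiveDimension_eq_of_iso e.toModuleIso

theorem free_of_weaklyRegular (rs : List S) (hreg : IsRegular S rs)
    (hmax : Ideal.ofList rs = maximalIdeal S)
    {N : Type} [AddCommGroup N] [Module S N] [Module.Finite S N] [Nontrivial N]
    (rs2 : List S) (hlen : rs2.length = rs.length) (hmem : ∀ x ∈ rs2, x ∈ maximalIdeal S)
    (hreg2 : IsWeaklyRegular N rs2)
    (hfl : IsFiniteLength S (N ⧸ Ideal.ofList rs2 • (⊤ : Submodule S N))) :
    Module.Free S N := by
  have hk : HasProjectiveDimensionLT (ModuleCat.of S (S ⧸ maximalIdeal S)) (rs.length + 1) := by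
    rw [← projectiveDimension_lt_iff, projDim_residue_eq rs hreg hmax]
    exact_mod_cast Nat.lt_succ_self _
  have hQ := hasProjDimLT_of_isFiniteLength (rs.length + 1) hk _ hfl
  have hpdQ : projectiveDimension
      (ModuleCat.of S (N ⧸ Ideal.ofList rs2 • (⊤ : Submodule S N))) ≤ (rs.length : ℕ) := by
    rw [projectiveDimension_le_iff]
    exact hQ
  have hadd := ModuleCat.projectiveDimension_quotient_eq_add_length_of_isWeaklyRegular
    (ModuleCat.of S N) rs2 hreg2 hmem
  have hle : projectiveDimension (ModuleCat.of S N) + (rs.length : ℕ) ≤ 0 + (rs.length : ℕ) := by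
    rw [zero_add, ← hlen, ← hadd]
    rw [hlen]
    exact hpdQ
  rw [ENat.WithBot.add_le_add_natCast_right_iff] at hle
  have hproj : Projective (ModuleCat.of S N) := by
    rw [projective_iff_hasProjectiveDimensionLE_zero, ← projectiveDimension_le_iff]
    exact_mod_cast hle
  have : Module.Projective S N := (IsProjective.iff_projective N).mpr hproj
  exact Module.free_of_flat_of_isLocalRing

end

end Fermat.Agent.S57
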