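import Mathlib

set_option autoImplicit false

namespace Fermat.Agent.S57

open RingTheory.Sequence IsLocalRing

section Transfer

variable {A B : Type*} [CommRing A] [CommRing B]

/-- For a surjective ring hom `f : A → B` with kernel `(a)`, the additive equivalence
`A ⧸ a • ⊤ ≃+ B`. -/
noncomputable def quotSMulTopAddEquiv (f : A →+* B) (hf : Function.Surjective f) (a : A)
    (hker : RingHom.ker f = Ideal.span {a}) : QuotSMulTop a A ≃+ B :=
  (QuotientAddGroup.quotientAddEquivOfEq (by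
      ext x
      simp only [Submodule.mem_toAddSubgroup, AddMonoidHom.mem_ker]
      rw [Submodule.mem_smul_pointwise_iff_exists]
      constructor
      · rintro ⟨y, -, rfl⟩
        have : a ∈ RingHom.ker f := by rw [hker]; exact Ideal.mem_span_singleton_self a
        show f (a • y) = 0
        rw [smul_eq_mul, map_mul, (RingHom.mem_ker).1 this, zero_mul]
      · intro hx
        have : x ∈ RingHom.ker f := hx
        rw [hker, Ideal.mem_span_singleton] at this
        obtain ⟨y, rfl⟩ := this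
        exact ⟨y, trivial, rfl⟩)).trans
    (QuotientAddGroup.quotientKerEquivOfSurjective (f : A →+ B) hf)

lemma quotSMulTopAddEquiv_mk (f : A →+* B) (hf : Function.Surjective f) (a : A)
    (hker : RingHom.ker f = Ideal.span {a}) (y : A) :
    quotSMulTopAddEquiv f hf a hker (Submodule.Quotient.mk y) = f y := rfl

lemma quotSMulTopAddEquiv_smul (f : A →+* B) (hf : Function.Surjective f) (a : A)
    (hker : RingHom.ker f = Ideal.span {a}) (r : A) (x : QuotSMulTop a A) :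
    quotSMulTopAddEquiv f hf a hker (r • x) = f r • quotSMulTopAddEquiv f hf a hker x := by
  obtain ⟨y, rfl⟩ := Submodule.Quotient.mk_surjective _ x
  rw [← Submodule.Quotient.mk_smul, quotSMulTopAddEquiv_mk, quotSMulTopAddEquiv_mk,
    smul_eq_mul, map_mul, smul_eq_mul]

/-- Transfer of weak regularity along a surjection with principal kernel. -/
lemma isWeaklyRegular_quotSMulTop_iff (f : A →+* B) (hf : Function.Surjective f) (a : A)
    (hker : RingHom.ker f = Ideal.span {a}) (rs : List A) :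
    IsWeaklyRegular (QuotSMulTop a A) rs ↔ IsWeaklyRegular B (rs.map f) :=
  AddEquiv.isWeaklyRegular_congr (e := quotSMulTopAddEquiv f hf a hker)
    (List.forall₂_map_right_iff.mpr <| List.forall₂_same.mpr fun r _ x =>
      quotSMulTopAddEquiv_smul f hf a hker r x)

lemma isWeaklyRegular_cons_of_surjective (f : A →+* B) (hf : Function.Surjective f) (a : A)
    (hker : RingHom.ker f = Ideal.span {a}) (ha : IsSMulRegular A a) (rs : List A)
    (h : IsWeaklyRegular B (rs.map f)) : IsWeaklyRegular A (a :: rs) :=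
  (isWeaklyRegular_cons_iff A a rs).mpr ⟨ha, (isWeaklyRegular_quotSMulTop_iff f hf a hker rs).mpr h⟩

end Transfer

section PowerSeriesRing

variable (𝒪 : Type*) [CommRing 𝒪]

/-- The ring hom `𝒪⟦X₀,…,X_r⟧ → 𝒪⟦X₀,…,X_{r-1}⟧` sending `X₀ ↦ 0`, `X_{j+1} ↦ X_j`. -/
noncomputable def killX0 (r : ℕ) :
    MvPowerSeries (Fin (r + 1)) 𝒪 →+* MvPowerSeries (Fin r) 𝒪 :=
  (PowerSeries.constantCoeff (R := MvPowerSeries (Fin r) 𝒪)).comp
    (MvPowerSeries.finSuccEquiv 𝒪 r : MvPowerSeries (Fin (r + 1)) 𝒪 →+*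
      PowerSeries (MvPowerSeries (Fin r) 𝒪))

variable {𝒪}

@[simp] lemma killX0_X_zero (r : ℕ) : killX0 𝒪 r (MvPowerSeries.X 0) = 0 := by
  simp [killX0]

@[simp] lemma killX0_X_succ (r : ℕ) (j : Fin r) :
    killX0 𝒪 r (MvPowerSeries.X j.succ) = MvPowerSeries.X j := by
  simp [killX0]

@[simp] lemma killX0_C (r : ℕ) (a : 𝒪) :
    killX0 𝒪 r (MvPowerSeries.C a) = MvPowerSeries.C a := by
  simp [killX0]

lemma killX0_surjective (r : ℕ) : Function.Surjective (killX0 𝒪 r) := by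
  intro y
  refine ⟨(MvPowerSeries.finSuccEquiv 𝒪 r).symm (PowerSeries.C y), ?_⟩
  simp [killX0]

lemma ker_killX0 (r : ℕ) : RingHom.ker (killX0 𝒪 r) = Ideal.span {MvPowerSeries.X 0} := by
  ext x
  rw [RingHom.mem_ker, Ideal.mem_span_singleton]
  show PowerSeries.constantCoeff (MvPowerSeries.finSuccEquiv 𝒪 r x) = 0 ↔ _
  rw [← PowerSeries.X_dvd_iff, ← MvPowerSeries.finSuccEquiv_X_zero (R := 𝒪) (n := r)]
  exact map_dvd_iff (MvPowerSeries.finSuccEquiv 𝒪 r)

lemma constantCoeff_killX0 (r : ℕ) (x : MvPowerSeries (Fin (r + 1)) 𝒪) :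
    MvPowerSeries.constantCoeff (killX0 𝒪 r x) = MvPowerSeries.constantCoeff x := by
  have h : killX0 𝒪 r x = PowerSeries.coeff 0 (MvPowerSeries.finSuccEquiv 𝒪 r x) := by
    simp [killX0]
  rw [h, ← MvPowerSeries.coeff_zero_eq_constantCoeff_apply,
    ← MvPowerSeries.coeff_zero_eq_constantCoeff_apply, MvPowerSeries.coeff_coeff_finSuccEquiv]
  simp

lemma mem_maximalIdeal_mvPowerSeries_iff [IsLocalRing 𝒪] {σ : Type*}
    (x : MvPowerSeries σ 𝒪) :
    x ∈ maximalIdeal (MvPowerSeries σ 𝒪) ↔ MvPowerSeries.constantCoeff x ∈ maximalIdeal 𝒪 := by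
  rw [mem_maximalIdeal, mem_maximalIdeal, mem_nonunits_iff, mem_nonunits_iff,
    MvPowerSeries.isUnit_iff_constantCoeff]

variable (ϖ : 𝒪)

/-- The sequence `X₀, …, X_{r-1}, ϖ` in `𝒪⟦X₀,…,X_{r-1}⟧`. -/
noncomputable def regSeq (r : ℕ) : List (MvPowerSeries (Fin r) 𝒪) :=
  List.ofFn (fun i : Fin r => (MvPowerSeries.X i : MvPowerSeries (Fin r) 𝒪)) ++
    [MvPowerSeries.C ϖ]

lemma regSeq_length (r : ℕ) : (regSeq ϖ r).length = r + 1 := by
  simp [regSeq]

lemma regSeq_zero : regSeq ϖ 0 = [MvPowerSeries.C ϖ] := by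
  simp [regSeq]

/-- The tail of `regSeq ϖ (r+1)`. -/
noncomputable def regSeqTail (r : ℕ) : List (MvPowerSeries (Fin (r + 1)) 𝒪) :=
  List.ofFn (fun j : Fin r => (MvPowerSeries.X j.succ : MvPowerSeries (Fin (r + 1)) 𝒪)) ++
    [MvPowerSeries.C ϖ]

lemma regSeq_succ (r : ℕ) : regSeq ϖ (r + 1) = MvPowerSeries.X 0 :: regSeqTail ϖ r := by
  simp [regSeq, regSeqTail, List.ofFn_succ]

lemma map_killX0_regSeqTail (r : ℕ) : (regSeqTail ϖ r).map (killX0 𝒪 r) = regSeq ϖ r := by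
  simp [regSeq, regSeqTail, List.map_ofFn, Function.comp_def]

lemma regSeq_mem_maximalIdeal [IsLocalRing 𝒪] (hϖ : ϖ ∈ maximalIdeal 𝒪) (r : ℕ) :
    ∀ x ∈ regSeq ϖ r, x ∈ maximalIdeal (MvPowerSeries (Fin r) 𝒪) := by
  intro x hx
  rw [mem_maximalIdeal_mvPowerSeries_iff]
  simp only [regSeq, List.mem_append, List.mem_ofFn, List.mem_singleton] at hx
  rcases hx with ⟨i, rfl⟩ | rfl
  · simp
  · simpa using hϖ

lemma isWeaklyRegular_regSeq [IsDomain 𝒪] (hϖ : ϖ ≠ 0) (r : ℕ) :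
    IsWeaklyRegular (MvPowerSeries (Fin r) 𝒪) (regSeq ϖ r) := by
  induction r with
  | zero =>
    rw [regSeq_zero, isWeaklyRegular_singleton_iff]
    have h : (MvPowerSeries.C ϖ : MvPowerSeries (Fin 0) 𝒪) ≠ 0 := by
      intro h0
      apply hϖ
      have := congrArg MvPowerSeries.constantCoeff h0
      simpa using this
    exact (IsRegular.of_ne_zero h).left.isSMulRegular
  | succ r ih =>
    rw [regSeq_succ]
    refine isWeaklyRegular_cons_of_surjective (killX0 𝒪 r) (killX0_surjective r) _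
      (ker_killX0 r) ?_ _ ?_
    · have h : (MvPowerSeries.X 0 : MvPowerSeries (Fin (r + 1)) 𝒪) ≠ 0 := by
        intro h0
        have := congrArg (MvPowerSeries.coeff (Finsupp.single (0 : Fin (r + 1)) 1)) h0
        rw [MvPowerSeries.coeff_index_single_self_X] at this
        simp at this
      exact (IsRegular.of_ne_zero h).left.isSMulRegular
    · rw [map_killX0_regSeqTail]
      exact ih

/-- `X₀, …, X_{r-1}, ϖ` is a regular sequence on `𝒪⟦X₀,…,X_{r-1}⟧`. -/
theorem isRegular_regSeq [IsDomain 𝒪] [IsLocalRing 𝒪] (hϖ0 : ϖ ≠ 0)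
    (hϖ : ϖ ∈ maximalIdeal 𝒪) (r : ℕ) :
    IsRegular (MvPowerSeries (Fin r) 𝒪) (regSeq ϖ r) :=
  IsRegular.of_isWeaklyRegular_of_mem_maximalIdeal _ (regSeq_mem_maximalIdeal ϖ hϖ r)
    (isWeaklyRegular_regSeq ϖ hϖ0 r)

lemma comap_killX0_maximalIdeal [IsLocalRing 𝒪] (r : ℕ) :
    Ideal.comap (killX0 𝒪 r) (maximalIdeal (MvPowerSeries (Fin r) 𝒪)) =
      maximalIdeal (MvPowerSeries (Fin (r + 1)) 𝒪) := by
  ext x
  rw [Ideal.mem_comap, mem_maximalIdeal_mvPowerSeries_iff, mem_maximalIdeal_mvPowerSeries_iff,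
    constantCoeff_killX0]

/-- `X₀, …, X_{r-1}, ϖ` generate the maximal ideal of `𝒪⟦X₀,…,X_{r-1}⟧`. -/
theorem ofList_regSeq_eq_maximalIdeal [IsLocalRing 𝒪]
    (hϖ : maximalIdeal 𝒪 = Ideal.span {ϖ}) (r : ℕ) :
    Ideal.ofList (regSeq ϖ r) = maximalIdeal (MvPowerSeries (Fin r) 𝒪) := by
  induction r with
  | zero =>
    rw [regSeq_zero, Ideal.ofList_singleton]
    ext x
    rw [mem_maximalIdeal_mvPowerSeries_iff, hϖ, Ideal.mem_span_singleton,
      Ideal.mem_span_singleton]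
    have hx : x = MvPowerSeries.C (MvPowerSeries.constantCoeff x) :=
      ((MvPowerSeries.isEmptyEquiv (Fin 0) 𝒪).left_inv x).symm
    constructor
    · rintro ⟨c, hc⟩
      refine ⟨MvPowerSeries.constantCoeff c, ?_⟩
      rw [hc]; simp
    · rintro ⟨c, hc⟩
      refine ⟨MvPowerSeries.C c, ?_⟩
      rw [hx, hc, map_mul]
  | succ r ih =>
    have hle : RingHom.ker (killX0 𝒪 r) ≤ Ideal.ofList (regSeq ϖ (r + 1)) := by
      rw [ker_killX0, regSeq_succ, Ideal.ofList_cons]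
      exact le_sup_left
    have hmap : Ideal.map (killX0 𝒪 r) (Ideal.ofList (regSeq ϖ (r + 1))) =
        Ideal.ofList (regSeq ϖ r) := by
      rw [Ideal.map_ofList, regSeq_succ, List.map_cons, killX0_X_zero, map_killX0_regSeqTail,
        Ideal.ofList_cons]
      simp
    rw [← comap_killX0_maximalIdeal, ← ih, ← hmap,
      Ideal.comap_map_of_surjective _ (killX0_surjective r)]
    exact (sup_eq_left.mpr hle).symm

end PowerSeriesRing

section DVR

variable {𝒪 : Type*} [CommRing 𝒪] [IsDomain 𝒪] [IsDiscreteValuationRing 𝒪]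

/-- For a DVR `𝒪` with uniformizer `ϖ`, the sequence `X₀, …, X_{r-1}, ϖ` is a regular sequence on
`𝒪⟦X₀,…,X_{r-1}⟧` of length `r + 1` generating the maximal ideal. -/
theorem exists_regular_sequence_mvPowerSeries (r : ℕ) :
    ∃ rs : List (MvPowerSeries (Fin r) 𝒪), rs.length = r + 1 ∧
      IsRegular (MvPowerSeries (Fin r) 𝒪) rs ∧
      Ideal.ofList rs = maximalIdeal (MvPowerSeries (Fin r) 𝒪) := by
  obtain ⟨ϖ, hϖ⟩ := IsDiscreteValuationRing.exists_irreducible 𝒪
  have hmax : maximalIdeal 𝒪 = Ideal.span {ϖ} := hϖ.maximalIdeal_eq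
  have hmem : ϖ ∈ maximalIdeal 𝒪 := by rw [hmax]; exact Ideal.mem_span_singleton_self ϖ
  exact ⟨regSeq ϖ r, regSeq_length ϖ r, isRegular_regSeq ϖ hϖ.ne_zero hmem r,
    ofList_regSeq_eq_maximalIdeal ϖ hmax r⟩

end DVR

end Fermat.Agent.S57
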